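import Fermat.Agent.S56.W2.EC.Cyclic.Glue.Conc
import Fermat.Agent.S56.W2.EC.Cyclic.ArchGlue
import Fermat.Agent.S56.W2.EC.Sh.Psi

/-!
# S56 / W2 / EC / Cyclic / Glue / Asm : the cyclic case from the `K₀` identities (helper48)

`CycSetup.psiK_coInd_eq_zero` : for `𝒮 : CycSetup p S`, from the four `K₀` identities (N1) Kummer,
(N3) torsion, (N4) reciprocity, (N6) units for the concrete objects `𝒮.Hmu`, `Zobj ≃ cyZ Pk W`,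

  `Ψ(coInd_U X) = 0`

for every finite `𝔽_p[U]`-module `X` with trivial action of `W`
(`ecSh_psiK_coInd` + (G1)–(G4) + `CycK0.formula`).
-/

set_option autoImplicit false
set_option linter.unusedSectionVars false

noncomputable section

namespace Fermat.Agent.S56.EC

open Fermat.Agent.F4 ExtCitation NumberField

namespace CycSetup

variable {p : ℕ} [Fact p.Prime] {S : Finset Nat.Primes} (𝒮 : CycSetup p S)

lemma isOpen_U : (levelsS S).IsOpen 𝒮.U := ⟨𝒮.W, 𝒮.hW, 𝒮.hWU⟩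

lemma isSmooth_of_triv (X : Rep.{0} (ZMod p) ↥𝒮.U)
    (htriv : ∀ (u : ↥𝒮.U), (u : GQ) ∈ 𝒮.W → ∀ x : X, X.ρ u x = x) :
    IsSmooth ((levelsS S).comap 𝒮.U.subtype) X := fun x =>
  ⟨𝒮.W.comap 𝒮.U.subtype, ⟨𝒮.W, 𝒮.hW, rfl⟩, fun u hu => htriv u hu x⟩

/-- **The cyclic case from the `K₀` identities.** -/
theorem psiK_coInd_eq_zero {hpS : pPrime p ∈ S} (Pk : ECPack p S hpS)
    (Emod Zobj Sha : FinCMod p 𝒮.Γ)
    (A : Type) [AddCommGroup A] [DistribMulAction 𝒮.Γ A] [Finite A]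
    (zVal : Zobj.carrier ≃+ ↥(cyZ Pk 𝒮.W))
    (hz : ∀ (u : ↥𝒮.U) (a : Zobj.carrier),
      ((zVal (𝒮.proj u • a) : ↥(cyZ Pk 𝒮.W)) : Pk.KC.K0) =
        Pk.KC.K0.ρ (u : GQ) ((zVal a : ↥(cyZ Pk 𝒮.W)) : Pk.KC.K0))
    (kummer : ∀ d : FinCMod p 𝒮.Γ → ℤ, IsAdditive d →
      d 𝒮.Hmu = d Emod + d (torObj (C := 𝒮.Γ) A (NeZero.ne p)))
    (tors : ∀ d : FinCMod p 𝒮.Γ → ℤ, IsAdditive d →
      d Zobj = d (muPermObj 𝒮.ω 𝒮.actf) - d (muObj 𝒮.ω) + d Sha)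
    (recip : ∀ d : FinCMod p 𝒮.Γ → ℤ, IsAdditive d →
      d Sha = d (dualObj 𝒮.ω (modObj (C := 𝒮.Γ) A (NeZero.ne p))))
    (units : ∀ d : FinCMod p 𝒮.Γ → ℤ, IsAdditive d →
      d Emod - d (muObj 𝒮.ω) + d (trivObj p 𝒮.Γ) = d (permObj p 𝒮.actf) + d (permObj p 𝒮.acti))
    (X : Rep.{0} (ZMod p) ↥𝒮.U) (hfin : Module.Finite (ZMod p) X)
    (htriv : ∀ (u : ↥𝒮.U), (u : GQ) ∈ 𝒮.W → ∀ x : X, X.ρ u x = x) :
    psiK S Pk.KC (coInd 𝒮.U.subtype (levelsS S) X) = 0 := by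
  let I : CycK0 𝒮.ω :=
    { Hμ := 𝒮.Hmu
      Emod := Emod
      Z := Zobj
      Sha := Sha
      A := A
      Ωf := ↥𝒮.T.carrier
      Ωi := InfinitePlace 𝒮.L.field
      actf := 𝒮.actf
      acti := 𝒮.acti
      kummer := kummer
      tors := tors
      recip := recip
      units := units }
  rw [ecSh_psiK_coInd S Pk.KC 𝒮.isOpen_U X (𝒮.isSmooth_of_triv X htriv),
    𝒮.glueG1 X hfin htriv, 𝒮.glueG2 X hfin htriv, 𝒮.glueG3 X hfin htriv Pk Zobj zVal hz,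
    𝒮.finrank_negArch X hfin htriv]
  exact CycK0.formula I 𝒮.card_coprime (𝒮.obj X hfin htriv)

end CycSetup

/-- **(C) + (D)** from the `K₀` identities of every cyclic setting. -/
theorem psiCoindZero_of_fields {p : ℕ} [Fact p.Prime] {S : Finset Nat.Primes}
    {hpS : pPrime p ∈ S} (Pk : ECPack p S hpS)
    (h : ∀ 𝒮 : CycSetup p S, ∃ (Emod Zobj Sha : FinCMod p 𝒮.Γ) (A : Type) (_ : AddCommGroup A)
      (_ : DistribMulAction 𝒮.Γ A) (_ : Finite A) (zVal : Zobj.carrier ≃+ ↥(cyZ Pk 𝒮.W)),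
      (∀ (u : ↥𝒮.U) (a : Zobj.carrier),
        ((zVal (𝒮.proj u • a) : ↥(cyZ Pk 𝒮.W)) : Pk.KC.K0) =
          Pk.KC.K0.ρ (u : GQ) ((zVal a : ↥(cyZ Pk 𝒮.W)) : Pk.KC.K0)) ∧
      (∀ d : FinCMod p 𝒮.Γ → ℤ, IsAdditive d →
        d 𝒮.Hmu = d Emod + d (torObj (C := 𝒮.Γ) A (NeZero.ne p))) ∧
      (∀ d : FinCMod p 𝒮.Γ → ℤ, IsAdditive d →
        d Zobj = d (muPermObj 𝒮.ω 𝒮.actf) - d (muObj 𝒮.ω) + d Sha) ∧
      (∀ d : FinCMod p 𝒮.Γ → ℤ, IsAdditive d →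
        d Sha = d (dualObj 𝒮.ω (modObj (C := 𝒮.Γ) A (NeZero.ne p)))) ∧
      (∀ d : FinCMod p 𝒮.Γ → ℤ, IsAdditive d →
        d Emod - d (muObj 𝒮.ω) + d (trivObj p 𝒮.Γ) =
          d (permObj p 𝒮.actf) + d (permObj p 𝒮.acti))) :
    PsiCoindZero S Pk.KC := by
  intro W U hW hWU hω hidx X hfin htriv
  obtain ⟨Emod, Zobj, Sha, A, iA, iB, iC, zVal, hz, h1, h2, h3, h4⟩ :=
    h ⟨W, U, hW, hWU, hω, hidx⟩
  exact CycSetup.psiK_coInd_eq_zero ⟨W, U, hW, hWU, hω, hidx⟩ Pk Emod Zobj Sha A zVal hz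
    h1 h2 h3 h4 X hfin htriv

end Fermat.Agent.S56.EC
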