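import Fermat.Agent.S56.W2.EC.Cyclic.Glue.G2
import Fermat.Agent.S56.W2.EC.Sh.Hom
import Fermat.Agent.S56.W2.EC.Cyclic.TorsDefs

/-!
# S56 / W2 / EC / Cyclic / Glue / G3 : `dim Hom_U(X, K) = ⟨X̄, Z⟩` (helper48)

`𝒮 : CycSetup p S`, `X` a finite `𝔽_p[U]`-module with trivial action of `W`,
`X̄ = 𝒮.obj X hfin htriv`, `K` a 2-term complex of `𝔽_p[G_ℚ]`-modules.  Universal form: for **any**
finite `𝔽_p[Γ]`-module `Zobj` presented as `ι : Zobj → K⁰`, injective, equivariant, with image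
`(ker d)^W`,

  `dim HH⁰(U, Hom(X, K|_U)) = ⟨X̄, Zobj⟩`        (`ecG3_hom`).

`ecG3_hom_of_zeta` : the same for `K = K_C` and `Zobj` presented as in `tors_universal`
(`ζ : cyZt → Zobj` surjective with kernel `ε(μ_p)`, equivariant).
-/

set_option autoImplicit false
set_option linter.unusedSectionVars false
set_option linter.style.haveILetI false

noncomputable section

namespace Fermat.Agent.S56.EC

open Fermat.Agent.F4 ExtCitation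

variable {p : ℕ} [Fact p.Prime] {S : Finset Nat.Primes} (𝒮 : CycSetup p S)
  (X : Rep.{0} (ZMod p) ↥𝒮.U) (hfin : Module.Finite (ZMod p) X)
  (htriv : ∀ (u : ↥𝒮.U), (u : GQ) ∈ 𝒮.W → ∀ x : X, X.ρ u x = x)
  (K : Cx (ZMod p) GQ) (Zobj : FinCMod p 𝒮.Γ) (ι : Zobj.carrier →+ K.K0)

/-- The linear map `X → K⁰` attached to `g : X̄ → Zobj`. -/
def ecG3Lin (g : (𝒮.obj X hfin htriv).carrier →+ Zobj.carrier) : X →ₗ[ZMod p] K.K0 :=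
  AddMonoidHom.toZModLinearMap p ((ι.comp g).comp (𝒮.objOf X hfin htriv))

lemma ecG3Lin_apply (g : (𝒮.obj X hfin htriv).carrier →+ Zobj.carrier) (x : X) :
    ecG3Lin 𝒮 X hfin htriv K Zobj ι g x = ι (g (𝒮.objOf X hfin htriv x)) := rfl

variable (hι : Function.Injective ι)
  (hr : ∀ z : K.K0, (∃ a, ι a = z) ↔ (K.d z = 0 ∧ ∀ w ∈ 𝒮.W, K.K0.ρ w z = z))
  (he : ∀ (u : ↥𝒮.U) (a : Zobj.carrier), ι (𝒮.proj u • a) = K.K0.ρ (u : GQ) (ι a))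

include hr he in
lemma ecG3Lin_mem (g : (𝒮.obj X hfin htriv).carrier →+ Zobj.carrier)
    (hg : g ∈ homC (𝒮.obj X hfin htriv) Zobj) :
    ecShToHom X (K.res 𝒮.U.subtype) (ecShResIn K (ecG3Lin 𝒮 X hfin htriv K Zobj ι g))
      ∈ HH0 (homCx X (K.res 𝒮.U.subtype)) := by
  refine (ecSh_mem_HH0_iff X (K.res 𝒮.U.subtype) _).2 ⟨fun u x => ?_, fun x => ?_⟩
  · show ι (g (𝒮.objOf X hfin htriv (X.ρ u x))) = K.K0.ρ (u : GQ) (ι (g (𝒮.objOf X hfin htriv x)))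
    rw [← he, ← hg (𝒮.proj u)]
    rfl
  · show K.d (ι (g (𝒮.objOf X hfin htriv x))) = 0
    exact ((hr _).1 ⟨_, rfl⟩).1

/-- `Hom_Γ(X̄, Zobj) → HH⁰(U, Hom(X, K|_U))`. -/
def ecG3Map (g : ↥(homC (𝒮.obj X hfin htriv) Zobj)) :
    ↥(HH0 (homCx X (K.res 𝒮.U.subtype))) :=
  ⟨ecShToHom X (K.res 𝒮.U.subtype) (ecShResIn K (ecG3Lin 𝒮 X hfin htriv K Zobj ι g.1)),
    ecG3Lin_mem 𝒮 X hfin htriv K Zobj ι hr he g.1 g.2⟩

lemma ecG3Map_apply (g : ↥(homC (𝒮.obj X hfin htriv) Zobj)) (x : X) :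
    ecShOfHom X (K.res 𝒮.U.subtype) (ecG3Map 𝒮 X hfin htriv K Zobj ι hr he g).1 x
      = ι (g.1 (𝒮.objOf X hfin htriv x)) := rfl

include hι in
lemma ecG3Map_injective : Function.Injective (ecG3Map 𝒮 X hfin htriv K Zobj ι hr he) := by
  intro g g' h
  apply Subtype.ext
  refine AddMonoidHom.ext fun x => ?_
  apply hι
  have h1 := congrArg (fun F : ↥(HH0 (homCx X (K.res 𝒮.U.subtype))) =>
    ecShOfHom X (K.res 𝒮.U.subtype) F.1 (𝒮.objVal X hfin htriv x)) h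
  exact h1

include hι in
lemma ecG3Map_surjective : Function.Surjective (ecG3Map 𝒮 X hfin htriv K Zobj ι hr he) := by
  intro F
  obtain ⟨h1, h2⟩ := (ecSh_mem_HH0_iff X (K.res 𝒮.U.subtype) F.1).1 F.2
  set f : X →ₗ[ZMod p] K.K0 := ecShResOut K (ecShOfHom X (K.res 𝒮.U.subtype) F.1) with hf
  have h1' : ∀ (u : ↥𝒮.U) (x : X), f (X.ρ u x) = K.K0.ρ (u : GQ) (f x) := h1
  have h2' : ∀ x : X, K.d (f x) = 0 := h2
  -- the values lie in `(ker d)^W`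
  have hmem : ∀ x : X, ∃ a : Zobj.carrier, ι a = f x := by
    intro x
    refine (hr _).2 ⟨h2' x, fun w hw => ?_⟩
    have := h1' ⟨w, 𝒮.hWU hw⟩ x
    rw [htriv ⟨w, 𝒮.hWU hw⟩ hw] at this
    exact this.symm
  choose a ha using hmem
  let g : (𝒮.obj X hfin htriv).carrier →+ Zobj.carrier :=
    { toFun := fun x => a (𝒮.objVal X hfin htriv x)
      map_zero' := by
        apply hι
        rw [ha, map_zero, map_zero, map_zero]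
      map_add' := fun x y => by
        apply hι
        rw [ha, map_add, map_add, map_add, ha, ha] }
  have hg : g ∈ homC (𝒮.obj X hfin htriv) Zobj := by
    intro γ x
    obtain ⟨u, rfl⟩ := 𝒮.proj_surjective γ
    apply hι
    show ι (a (𝒮.objVal X hfin htriv ((𝒮.proj u) • x))) = ι ((𝒮.proj u) • a (𝒮.objVal X hfin htriv x))
    rw [he, ha, ha, 𝒮.objVal_smul, h1']
  refine ⟨⟨g, hg⟩, Subtype.ext ?_⟩
  refine LinearMap.ext fun x => ?_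
  show ι (a (𝒮.objVal X hfin htriv (𝒮.objOf X hfin htriv x))) = f x
  rw [ha, 𝒮.objVal_objOf]

include hι hr he in
/-- **(G3)**, universal form: `dim HH⁰(U, Hom(X, K|_U)) = ⟨X̄, Zobj⟩`. -/
theorem ecG3_hom :
    (Module.finrank (ZMod p) ↥(HH0 (homCx X (K.res 𝒮.U.subtype))) : ℤ) =
      pairC (𝒮.obj X hfin htriv) Zobj := by
  have hbij : Function.Bijective (ecG3Map 𝒮 X hfin htriv K Zobj ι hr he) :=
    ⟨ecG3Map_injective 𝒮 X hfin htriv K Zobj ι hι hr he,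
      ecG3Map_surjective 𝒮 X hfin htriv K Zobj ι hι hr he⟩
  haveI : Finite ↥(HH0 (homCx X (K.res 𝒮.U.subtype))) :=
    Finite.of_surjective _ hbij.2
  unfold pairC
  rw [Nat.card_congr (Equiv.ofBijective _ hbij), ecG_log_card]

section Zeta

open Fermat.Agent.F4Cf

variable {hpS : pPrime p ∈ S} (Pk : ECPack p S hpS)
  (ζ : ↥(cyZt Pk 𝒮.W) →+ Zobj.carrier) (hζs : Function.Surjective ζ)
  (hζk : ∀ j : ↥(cyZt Pk 𝒮.W), ζ j = 0 ↔ ∃ m : Fp1 p, cyEps Pk m = (j : Pk.KJ.K0))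
  (hζe : ∀ (u : ↥𝒮.U) (j j' : ↥(cyZt Pk 𝒮.W)),
    (j' : Pk.KJ.K0) = Pk.KJ.K0.ρ (u : GQ) (j : Pk.KJ.K0) → ζ j' = 𝒮.proj u • ζ j)

/-- `cyZt → KC⁰`, `j ↦ [j]`. -/
def ecG3MkZt : ↥(cyZt Pk 𝒮.W) →+ Pk.KC.K0 :=
  (cyMk Pk).toAddMonoidHom.comp (cyZt Pk 𝒮.W).subtype

lemma ecG3MkZt_apply (j : ↥(cyZt Pk 𝒮.W)) : ecG3MkZt 𝒮 Pk j = cyMk Pk (j : Pk.KJ.K0) := rfl

include hζk in
lemma ecG3_ker_le : ζ.ker ≤ (ecG3MkZt 𝒮 Pk).ker := by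
  intro j hj
  rw [AddMonoidHom.mem_ker] at hj ⊢
  rw [ecG3MkZt_apply, cyMk_eq_zero_iff]
  exact (hζk j).1 hj

/-- The embedding `Zobj → KC⁰` attached to a presentation `ζ`. -/
def ecG3Iota : Zobj.carrier →+ Pk.KC.K0 :=
  ζ.liftOfSurjective hζs ⟨ecG3MkZt 𝒮 Pk, ecG3_ker_le 𝒮 Zobj Pk ζ hζk⟩

lemma ecG3Iota_zeta (j : ↥(cyZt Pk 𝒮.W)) :
    ecG3Iota 𝒮 Zobj Pk ζ hζs hζk (ζ j) = cyMk Pk (j : Pk.KJ.K0) :=
  AddMonoidHom.liftOfRightInverse_comp_apply _ _ _ ⟨ecG3MkZt 𝒮 Pk, ecG3_ker_le 𝒮 Zobj Pk ζ hζk⟩ j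

lemma ecG3Iota_injective : Function.Injective (ecG3Iota 𝒮 Zobj Pk ζ hζs hζk) := by
  rw [injective_iff_map_eq_zero]
  intro a ha
  obtain ⟨j, rfl⟩ := hζs a
  rw [ecG3Iota_zeta, cyMk_eq_zero_iff] at ha
  exact (hζk j).2 ha

lemma ecG3Iota_range (z : Pk.KC.K0) :
    (∃ a, ecG3Iota 𝒮 Zobj Pk ζ hζs hζk a = z) ↔
      (Pk.KC.d z = 0 ∧ ∀ w ∈ 𝒮.W, Pk.KC.K0.ρ w z = z) := by
  rw [← mem_cyZ]
  constructor
  · rintro ⟨a, rfl⟩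
    obtain ⟨j, rfl⟩ := hζs a
    rw [ecG3Iota_zeta, cyMk_mem_cyZ_iff]
    exact j.2
  · intro hz
    obtain ⟨j, rfl⟩ := cyMk_surjective Pk z
    have hj : j ∈ cyZt Pk 𝒮.W := (cyMk_mem_cyZ_iff Pk 𝒮.W j).1 hz
    exact ⟨ζ ⟨j, hj⟩, ecG3Iota_zeta 𝒮 Zobj Pk ζ hζs hζk ⟨j, hj⟩⟩

include hζe in
lemma ecG3Iota_smul (u : ↥𝒮.U) (a : Zobj.carrier) :
    ecG3Iota 𝒮 Zobj Pk ζ hζs hζk (𝒮.proj u • a) =
      Pk.KC.K0.ρ (u : GQ) (ecG3Iota 𝒮 Zobj Pk ζ hζs hζk a) := by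
  obtain ⟨j, rfl⟩ := hζs a
  have hj' : Pk.KJ.K0.ρ (u : GQ) (j : Pk.KJ.K0) ∈ cyZt Pk 𝒮.W :=
    cyZt_stable Pk 𝒮.W 𝒮.normal_W (u : GQ) _ j.2
  rw [← hζe u j ⟨_, hj'⟩ rfl, ecG3Iota_zeta, ecG3Iota_zeta, cyMk_comm]

include hζs hζk hζe in
/-- **(G3)** for `K_C`, with `Z` presented as in `tors_universal`. -/
theorem ecG3_hom_of_zeta :
    (Module.finrank (ZMod p) ↥(HH0 (homCx X (Pk.KC.res 𝒮.U.subtype))) : ℤ) =
      pairC (𝒮.obj X hfin htriv) Zobj :=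
  ecG3_hom 𝒮 X hfin htriv Pk.KC Zobj (ecG3Iota 𝒮 Zobj Pk ζ hζs hζk)
    (ecG3Iota_injective 𝒮 Zobj Pk ζ hζs hζk) (ecG3Iota_range 𝒮 Zobj Pk ζ hζs hζk)
    (ecG3Iota_smul 𝒮 Zobj Pk ζ hζs hζk hζe)

end Zeta

end Fermat.Agent.S56.EC
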