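import Fermat.Agent.S56.W2.EC.Cyclic.Glue.G1
import Fermat.Agent.S56.W2.EC.Cyclic.Glue.G3
import Fermat.Agent.S56.W2.EC.Cyclic.HmuObj

/-!
# S56 / W2 / EC / Cyclic / Glue / Conc : the glue for the concrete objects (helper48)

* `CycSetup.glueG1` : `dim H¹_sm(U, X) = ⟨D X̄, 𝒮.Hmu⟩`  (`𝒮.Hmu` of `Cyclic/HmuObj.lean`);
* `CycSetup.glueG2` : `dim X^U = ⟨D X̄, μ_p⟩`;
* `CycSetup.glueG3` : `dim HH⁰(U, Hom(X, K_C|_U)) = ⟨X̄, Zobj⟩` for any `Zobj` with an equivariant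
  additive bijection onto `cyZ Pk 𝒮.W`.
-/

set_option autoImplicit false
set_option linter.unusedSectionVars false

noncomputable section

namespace Fermat.Agent.S56.EC

open Fermat.Agent.F4 ExtCitation

namespace CycSetup

variable {p : ℕ} [Fact p.Prime] {S : Finset Nat.Primes} (𝒮 : CycSetup p S)
  (X : Rep.{0} (ZMod p) ↥𝒮.U) (hfin : Module.Finite (ZMod p) X)
  (htriv : ∀ (u : ↥𝒮.U), (u : GQ) ∈ 𝒮.W → ∀ x : X, X.ρ u x = x)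

/-- **(G1)** for the concrete `Hμ`. -/
theorem glueG1 :
    (Module.finrank (ZMod p) (H1sm ((levelsS S).comap 𝒮.U.subtype) X) : ℤ) =
      pairC (dualObj 𝒮.ω (𝒮.obj X hfin htriv)) 𝒮.Hmu :=
  ecG1_h1 𝒮 X hfin htriv 𝒮.Hmu 𝒮.hmuVal 𝒮.hmuVal_injective
    (fun _ => ⟨fun ⟨h, hh⟩ => hh ▸ 𝒮.hmuVal_mem h, fun hχ => 𝒮.exists_hmuVal_eq hχ⟩)
    (fun u h => 𝒮.hmuVal_smul u h)

/-- **(G2)**. -/
theorem glueG2 :
    (Module.finrank (ZMod p) ↥(ecShInv X) : ℤ) =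
      pairC (dualObj 𝒮.ω (𝒮.obj X hfin htriv)) (muObj 𝒮.ω) :=
  ecG2_h0 𝒮 X hfin htriv

/-- **(G3)** for any object `Zobj` with an equivariant additive bijection onto
`cyZ Pk W = (ker d_C)^W`. -/
theorem glueG3 {hpS : pPrime p ∈ S} (Pk : ECPack p S hpS) (Zobj : FinCMod p 𝒮.Γ)
    (zVal : Zobj.carrier ≃+ ↥(cyZ Pk 𝒮.W))
    (hz : ∀ (u : ↥𝒮.U) (a : Zobj.carrier),
      ((zVal (𝒮.proj u • a) : ↥(cyZ Pk 𝒮.W)) : Pk.KC.K0) =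
        Pk.KC.K0.ρ (u : GQ) ((zVal a : ↥(cyZ Pk 𝒮.W)) : Pk.KC.K0)) :
    (Module.finrank (ZMod p) ↥(HH0 (homCx X (Pk.KC.res 𝒮.U.subtype))) : ℤ) =
      pairC (𝒮.obj X hfin htriv) Zobj :=
  ecG3_hom 𝒮 X hfin htriv Pk.KC Zobj ((cyZ Pk 𝒮.W).subtype.comp zVal.toAddMonoidHom)
    (fun _ _ h => zVal.injective (Subtype.ext h))
    (fun z => ⟨fun ⟨a, ha⟩ => ha ▸ (zVal a).2, fun hz' => ⟨zVal.symm ⟨z, hz'⟩, by
      show ((zVal (zVal.symm ⟨z, hz'⟩) : ↥(cyZ Pk 𝒮.W)) : Pk.KC.K0) = z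
      rw [AddEquiv.apply_symm_apply]⟩⟩)
    hz

end CycSetup

end Fermat.Agent.S56.EC
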