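import Fermat.Agent.S56.W2.EC.Cyclic.K0.Defs

/-!
# S56 / W2 / EC / Cyclic / Glue / DD : double duality for finite elementary abelian `p`-groups
(helper48; generic algebra for the glue seats (G1)–(G3))

* `ecG_exists_functional` : additive characters `M → ZMod p` separate the points of `M`;
* `ecG_exists_eval` : every additive map `(M →+ ZMod p) → ZMod p` is an evaluation;
* `ecG_log_card` : `log_p #V = dim V` for a finite `𝔽_p`-vector space;
* `ecG_pairC_dual_mu` : `⟨D M, μ_p⟩ = log_p #M^Γ`.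
-/

set_option autoImplicit false
set_option linter.unusedSectionVars false
set_option linter.style.haveILetI false

noncomputable section

namespace Fermat.Agent.S56.EC

variable {p : ℕ} [Fact p.Prime]

section DD

/-- Linear forms separate points (instance version). -/
lemma ecG_exists_functional_aux (M : Type) [AddCommGroup M] [Module (ZMod p) M]
    (m : M) (hm : m ≠ 0) :
    ∃ φ : M →+ ZMod p, φ m ≠ 0 := by
  by_contra h
  push Not at h
  refine hm ((Module.forall_dual_apply_eq_zero_iff (ZMod p) (V := M) m).1 fun φ => ?_)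
  exact h φ.toAddMonoidHom

/-- Double duality (instance version). -/
lemma ecG_exists_eval_aux (M : Type) [AddCommGroup M] [Module (ZMod p) M] [Finite M]
    (e : (M →+ ZMod p) →+ ZMod p) :
    ∃ m : M, ∀ φ : M →+ ZMod p, e φ = φ m := by
  haveI : Module.Finite (ZMod p) M := Module.Finite.of_finite
  let e' : Module.Dual (ZMod p) M →+ ZMod p :=
    e.comp (LinearMap.toAddMonoidHom' : (M →ₗ[ZMod p] ZMod p) →+ (M →+ ZMod p))
  let e'' : Module.Dual (ZMod p) (Module.Dual (ZMod p) M) := AddMonoidHom.toZModLinearMap p e'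
  obtain ⟨m, hm⟩ := (Module.evalEquiv (ZMod p) M).surjective e''
  refine ⟨m, fun φ => ?_⟩
  have h1 := congrArg (fun u : Module.Dual (ZMod p) (Module.Dual (ZMod p) M) =>
    u (AddMonoidHom.toZModLinearMap p φ)) hm
  simp only [Module.evalEquiv_apply, Module.Dual.eval_apply] at h1
  exact h1.symm

variable {M : Type} [AddCommGroup M] [Finite M]

/-- Additive characters separate points. -/
lemma ecG_exists_functional (hM : ∀ x : M, p • x = 0) (m : M) (hm : m ≠ 0) :
    ∃ φ : M →+ ZMod p, φ m ≠ 0 :=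
  @ecG_exists_functional_aux p _ M _ (AddCommGroup.zmodModule hM) m hm

/-- Every additive map on the characters is an evaluation. -/
lemma ecG_exists_eval (hM : ∀ x : M, p • x = 0) (e : (M →+ ZMod p) →+ ZMod p) :
    ∃ m : M, ∀ φ : M →+ ZMod p, e φ = φ m :=
  @ecG_exists_eval_aux p _ M _ (AddCommGroup.zmodModule hM) _ e

/-- Two points with the same values under all characters are equal. -/
lemma ecG_eq_of_forall (hM : ∀ x : M, p • x = 0) {a b : M}
    (h : ∀ φ : M →+ ZMod p, φ a = φ b) : a = b := by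
  by_contra hne
  obtain ⟨φ, hφ⟩ := ecG_exists_functional hM (a - b) (sub_ne_zero.2 hne)
  apply hφ
  rw [map_sub, sub_eq_zero]
  exact h φ

/-- Double duality with parameters: an additive family of functions on `N` indexed by the
characters of `M` is `φ ↦ φ ∘ f` for a unique `f : N → M`. -/
lemma ecG_exists_repr (hM : ∀ x : M, p • x = 0) {N : Type}
    (F : (M →+ ZMod p) →+ (N → ZMod p)) :
    ∃ f : N → M, ∀ (φ : M →+ ZMod p) (n : N), F φ n = φ (f n) := by
  have h : ∀ n : N, ∃ m : M, ∀ φ : M →+ ZMod p, F φ n = φ m := fun n =>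
    ecG_exists_eval hM ((Pi.evalAddMonoidHom (fun _ : N => ZMod p) n).comp F)
  choose f hf using h
  exact ⟨f, fun φ n => hf n φ⟩

end DD

/-- `log_p #V = dim V`. -/
lemma ecG_log_card (V : Type) [AddCommGroup V] [Module (ZMod p) V] [Finite V] :
    Nat.log p (Nat.card V) = Module.finrank (ZMod p) V := by
  have hp : p.Prime := Fact.out
  have : Fintype V := Fintype.ofFinite V
  rw [Nat.card_eq_fintype_card, Module.card_eq_pow_finrank (K := ZMod p) (V := V), ZMod.card,
    Nat.log_pow hp.one_lt]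

section G2

variable {Γ : Type} [Group Γ] (ω : Γ →* (ZMod p)ˣ) (M : FinCMod p Γ)

/-- The invariants of a `FinCMod`. -/
def ecGInv : AddSubgroup M.carrier where
  carrier := {m | ∀ γ : Γ, γ • m = m}
  zero_mem' := fun γ => smul_zero γ
  add_mem' := fun {a b} ha hb γ => by rw [smul_add, ha γ, hb γ]
  neg_mem' := fun {a} ha γ => by rw [smul_neg, ha γ]

lemma mem_ecGInv (m : M.carrier) : m ∈ ecGInv M ↔ ∀ γ : Γ, γ • m = m := Iff.rfl

/-- Evaluation at `m`, `D M → μ_p`. -/
def ecGEval (m : M.carrier) : (dualObj ω M).carrier →+ (muObj ω).carrier where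
  toFun φ := MuMod.of ω (DualMod.val ω M φ m)
  map_zero' := rfl
  map_add' _ _ := rfl

lemma ecGEval_apply (m : M.carrier) (φ : (dualObj ω M).carrier) :
    MuMod.val ω (ecGEval ω M m φ) = DualMod.val ω M φ m := rfl

lemma ecGEval_mem_iff (m : M.carrier) : ecGEval ω M m ∈ homC (dualObj ω M) (muObj ω) ↔
    m ∈ ecGInv M := by
  constructor
  · intro h γ
    by_contra hne
    have hne' : γ • m - m ≠ 0 := sub_ne_zero.2 hne
    obtain ⟨φ, hφ⟩ := ecG_exists_functional M.killed (γ • m - m) hne'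
    apply hφ
    rw [map_sub, sub_eq_zero]
    -- apply equivariance to `γ • φ`
    have h1 := h γ⁻¹ (DualMod.of ω M φ)
    have h2 : ((ω γ⁻¹ : (ZMod p)ˣ) : ZMod p) * φ (γ⁻¹⁻¹ • m)
        = ((ω γ⁻¹ : (ZMod p)ˣ) : ZMod p) * φ m := congrArg (MuMod.val ω) h1
    rw [inv_inv] at h2
    have hu : IsUnit ((ω γ⁻¹ : (ZMod p)ˣ) : ZMod p) := (ω γ⁻¹).isUnit
    exact hu.mul_left_cancel h2
  · intro h γ φ
    apply MuMod.val_injective (ω := ω)
    show ((ω γ : (ZMod p)ˣ) : ZMod p) * DualMod.val ω M φ (γ⁻¹ • m)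
      = ((ω γ : (ZMod p)ˣ) : ZMod p) * DualMod.val ω M φ m
    have : γ⁻¹ • m = m := h γ⁻¹
    rw [this]

/-- `M^Γ ≃ Hom_Γ(D M, μ_p)`. -/
def ecGEvalEquiv : ↥(ecGInv M) ≃ ↥(homC (dualObj ω M) (muObj ω)) :=
  Equiv.ofBijective (fun m => ⟨ecGEval ω M m.1, (ecGEval_mem_iff ω M m.1).2 m.2⟩) (by
    constructor
    · intro m m' h
      apply Subtype.ext
      by_contra hne
      obtain ⟨φ, hφ⟩ := ecG_exists_functional M.killed (m.1 - m'.1) (sub_ne_zero.2 hne)
      apply hφ
      rw [map_sub, sub_eq_zero]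
      have h1 := congrArg (fun e : ↥(homC (dualObj ω M) (muObj ω)) =>
        MuMod.val ω (e.1 (DualMod.of ω M φ))) h
      exact h1
    · intro e
      let e0 : (M.carrier →+ ZMod p) →+ ZMod p :=
        (MuMod.val ω).comp (e.1.comp (DualMod.of ω M))
      obtain ⟨m, hm⟩ := ecG_exists_eval M.killed e0
      have he : ecGEval ω M m = e.1 := by
        refine AddMonoidHom.ext fun φ => ?_
        apply MuMod.val_injective (ω := ω)
        rw [ecGEval_apply]
        exact (hm (DualMod.val ω M φ)).symm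
      have hmem : m ∈ ecGInv M := (ecGEval_mem_iff ω M m).1 (he ▸ e.2)
      exact ⟨⟨m, hmem⟩, Subtype.ext he⟩)

/-- **(G2), generic form**: `⟨D M, μ_p⟩ = log_p #M^Γ`. -/
theorem ecG_pairC_dual_mu :
    pairC (dualObj ω M) (muObj ω) = (Nat.log p (Nat.card ↥(ecGInv M)) : ℤ) := by
  unfold pairC
  rw [Nat.card_congr (ecGEvalEquiv ω M)]

end G2

end Fermat.Agent.S56.EC
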