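import Fermat.Agent.S56.W2.EC.Cyclic.Glue.G2
import Fermat.Agent.S56.W2.EC.Sh.InfRes
import Fermat.Agent.S56.W2.EC.Cyclic.ShaDefs

/-!
# S56 / W2 / EC / Cyclic / Glue / G1 : `h¹(U, X) = ⟨D X̄, Hμ⟩` (helper48)

`𝒮 : CycSetup p S`, `X` a finite `𝔽_p[U]`-module with trivial action of `W`,
`X̄ = 𝒮.obj X hfin htriv`.  Universal form: for **any** finite `𝔽_p[Γ]`-module `Hobj` presented as
`ν : Hobj → (W → μ_p)`, injective, with image the smooth characters `cyHomW S W`, equivariant for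
the twisted conjugation `cyConj`,

  `dim H¹_sm(U, X) = ⟨D X̄, Hobj⟩`        (`ecG1_h1`).

Proof: inflation–restriction `H¹_sm(U, X) ≃ Hom_sm(N, X)^U` (`ecShInfResZMod`) and double duality
`Hom_sm(N, X)^U ≃ Hom_Γ(D X̄, Hom_sm(W, μ_p))`, `f ↦ (φ ↦ φ ∘ f)`.
-/

set_option autoImplicit false
set_option linter.unusedSectionVars false
set_option linter.style.haveILetI false

noncomputable section

namespace Fermat.Agent.S56.EC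

open Fermat.Agent.F4 ExtCitation

variable {p : ℕ} [Fact p.Prime] {S : Finset Nat.Primes} (𝒮 : CycSetup p S)
  (X : Rep.{0} (ZMod p) ↥𝒮.U) (hfin : Module.Finite (ZMod p) X)
  (htriv : ∀ (u : ↥𝒮.U), (u : GQ) ∈ 𝒮.W → ∀ x : X, X.ρ u x = x)

/-- `ZMod p → μ_p`. -/
def ecG1In : ZMod p →+ Fp1 p := AddMonoidHom.id _

/-- `μ_p → ZMod p`. -/
def ecG1Out : Fp1 p →+ ZMod p := AddMonoidHom.id _

lemma ecG1Out_in (x : ZMod p) : ecG1Out (ecG1In x) = x := rfl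

lemma ecG1In_out (x : Fp1 p) : ecG1In (ecG1Out x) = x := rfl

lemma ecG1In_injective : Function.Injective (ecG1In (p := p)) := fun _ _ h => h

lemma ecG1Out_injective : Function.Injective (ecG1Out (p := p)) := fun _ _ h => h

lemma ecG1Out_ρ (g : GQ) (m : Fp1 p) :
    ecG1Out ((Fp1 p).ρ g m) = ((cycloChar p g : (ZMod p)ˣ) : ZMod p) * ecG1Out m := rfl

section Acc

variable {Γ : Type} [Group Γ] (ω : Γ →* (ZMod p)ˣ) (M : FinCMod p Γ)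

/-- The underlying character of an element of `D M`. -/
def ecGDVal : (dualObj ω M).carrier →+ (M.carrier →+ ZMod p) := DualMod.val ω M

/-- A character as an element of `D M`. -/
def ecGDOf : (M.carrier →+ ZMod p) →+ (dualObj ω M).carrier := DualMod.of ω M

lemma ecGDVal_of (φ : M.carrier →+ ZMod p) : ecGDVal ω M (ecGDOf ω M φ) = φ := rfl

lemma ecGDOf_val (φ : (dualObj ω M).carrier) : ecGDOf ω M (ecGDVal ω M φ) = φ := rfl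

lemma ecGDVal_smul (γ : Γ) (φ : (dualObj ω M).carrier) (m : M.carrier) :
    ecGDVal ω M (γ • φ) m = ((ω γ : (ZMod p)ˣ) : ZMod p) * ecGDVal ω M φ (γ⁻¹ • m) := rfl

end Acc

/-- The levels of `U`. -/
abbrev ecG1Lev : Levels ↥𝒮.U := (levelsS S).comap 𝒮.U.subtype

/-- `W → N`. -/
def ecG1toN (w : ↥𝒮.W) : ↥𝒮.N := ⟨⟨(w : GQ), 𝒮.hWU w.2⟩, (𝒮.mem_N _).2 w.2⟩

lemma ecG1toN_coe (w : ↥𝒮.W) : (((ecG1toN 𝒮 w : ↥𝒮.N) : ↥𝒮.U) : GQ) = (w : GQ) := rfl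

lemma ecG1toN_mul (w w' : ↥𝒮.W) : ecG1toN 𝒮 (w * w') = ecG1toN 𝒮 w * ecG1toN 𝒮 w' := rfl

/-- `N → W`. -/
def ecG1toW (n : ↥𝒮.N) : ↥𝒮.W := ⟨((n : ↥𝒮.U) : GQ), (𝒮.mem_N _).1 n.2⟩

lemma ecG1toN_toW (n : ↥𝒮.N) : ecG1toN 𝒮 (ecG1toW 𝒮 n) = n := rfl

lemma ecG1toW_toN (w : ↥𝒮.W) : ecG1toW 𝒮 (ecG1toN 𝒮 w) = w := rfl

lemma ecG1toW_mul (n n' : ↥𝒮.N) : ecG1toW 𝒮 (n * n') = ecG1toW 𝒮 n * ecG1toW 𝒮 n' := rfl

/-- The character `w ↦ φ (f w)`. -/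
def ecG1Chi (f : ↥𝒮.N → X) (φ : (dualObj 𝒮.ω (𝒮.obj X hfin htriv)).carrier) : ↥𝒮.W → Fp1 p :=
  fun w => ecG1In (ecGDVal 𝒮.ω (𝒮.obj X hfin htriv) φ
    (𝒮.objOf X hfin htriv (f (ecG1toN 𝒮 w))))

lemma ecG1Chi_apply (f : ↥𝒮.N → X) (φ : (dualObj 𝒮.ω (𝒮.obj X hfin htriv)).carrier) (w : ↥𝒮.W) :
    ecG1Chi 𝒮 X hfin htriv f φ w = ecG1In (ecGDVal 𝒮.ω (𝒮.obj X hfin htriv) φ
      (𝒮.objOf X hfin htriv (f (ecG1toN 𝒮 w)))) := rfl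

lemma ecG1Chi_add (f : ↥𝒮.N → X) (φ ψ : (dualObj 𝒮.ω (𝒮.obj X hfin htriv)).carrier) :
    ecG1Chi 𝒮 X hfin htriv f (φ + ψ) =
      ecG1Chi 𝒮 X hfin htriv f φ + ecG1Chi 𝒮 X hfin htriv f ψ := by
  funext w
  rw [Pi.add_apply, ecG1Chi_apply, ecG1Chi_apply, ecG1Chi_apply, map_add, AddMonoidHom.add_apply,
    map_add]

lemma ecG1Chi_zero (f : ↥𝒮.N → X) :
    ecG1Chi 𝒮 X hfin htriv f 0 = 0 := by
  funext w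
  rw [Pi.zero_apply, ecG1Chi_apply, map_zero, AddMonoidHom.zero_apply, map_zero]

lemma ecG1Chi_mem (f : ↥𝒮.N → X) (hf : f ∈ ecShHomInv (ecG1Lev 𝒮) 𝒮.N X)
    (φ : (dualObj 𝒮.ω (𝒮.obj X hfin htriv)).carrier) :
    ecG1Chi 𝒮 X hfin htriv f φ ∈ cyHomW S 𝒮.W := by
  obtain ⟨h1, -, V', ⟨V, hV, rfl⟩, h3⟩ := hf
  refine ⟨fun w w' => ?_, V, hV, fun w hw => ?_⟩
  · rw [ecG1Chi_apply, ecG1Chi_apply, ecG1Chi_apply, ecG1toN_mul, h1, map_add, map_add, map_add]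
  · have hw' : ((ecG1toN 𝒮 w : ↥𝒮.N) : ↥𝒮.U) ∈ V.comap 𝒮.U.subtype := hw
    rw [ecG1Chi_apply, h3 _ hw', map_zero, map_zero, map_zero]

lemma ecG1_smul_objOf (u : ↥𝒮.U) (x : X) :
    (𝒮.proj u) • 𝒮.objOf X hfin htriv x = 𝒮.objOf X hfin htriv (X.ρ u x) := rfl

lemma ecG1Chi_smul (f : ↥𝒮.N → X) (hf : f ∈ ecShHomInv (ecG1Lev 𝒮) 𝒮.N X) (u : ↥𝒮.U)
    (φ : (dualObj 𝒮.ω (𝒮.obj X hfin htriv)).carrier) :
    ecG1Chi 𝒮 X hfin htriv f ((𝒮.proj u) • φ) =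
      cyConj 𝒮.W 𝒮.normal_W (u : GQ) (ecG1Chi 𝒮 X hfin htriv f φ) := by
  funext w
  have hmem : (u : GQ)⁻¹ * (w : GQ) * (u : GQ) ∈ 𝒮.W := by
    have := 𝒮.normal_W.conj_mem w w.2 (u : GQ)⁻¹
    rwa [inv_inv] at this
  rw [cyConj_apply 𝒮.W 𝒮.normal_W (u : GQ) _ w hmem, ecG1Chi_apply, ecG1Chi_apply,
    ecGDVal_smul, ← map_inv, ecG1_smul_objOf]
  have h2 := hf.2.1 u⁻¹ (ecG1toN 𝒮 w)
  have h3 : (⟨u⁻¹ * ((ecG1toN 𝒮 w : ↥𝒮.N) : ↥𝒮.U) * u⁻¹⁻¹,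
      𝒮.normal_N.conj_mem (ecG1toN 𝒮 w) (ecG1toN 𝒮 w).2 u⁻¹⟩ : ↥𝒮.N) =
      ecG1toN 𝒮 ⟨(u : GQ)⁻¹ * (w : GQ) * (u : GQ), hmem⟩ := by
    apply Subtype.ext
    apply Subtype.ext
    show ((u⁻¹ * ((ecG1toN 𝒮 w : ↥𝒮.N) : ↥𝒮.U) * u⁻¹⁻¹ : ↥𝒮.U) : GQ) = _
    rw [inv_inv]
    rfl
  rw [h3] at h2
  rw [← h2]
  rfl

section Pres

variable (Hobj : FinCMod p 𝒮.Γ) (ν : Hobj.carrier →+ (↥𝒮.W → Fp1 p))
  (hν : Function.Injective ν)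
  (hr : ∀ χ : ↥𝒮.W → Fp1 p, (∃ h, ν h = χ) ↔ χ ∈ cyHomW S 𝒮.W)
  (he : ∀ (u : ↥𝒮.U) (h : Hobj.carrier),
    ν (𝒮.proj u • h) = cyConj 𝒮.W 𝒮.normal_W (u : GQ) (ν h))

/-- The element of `Hobj` with character `w ↦ φ (f w)`. -/
def ecG1Pre (f : ↥(ecShHomInv (ecG1Lev 𝒮) 𝒮.N X))
    (φ : (dualObj 𝒮.ω (𝒮.obj X hfin htriv)).carrier) : Hobj.carrier :=
  ((hr _).2 (ecG1Chi_mem 𝒮 X hfin htriv f.1 f.2 φ)).choose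

lemma ecG1Pre_spec (f : ↥(ecShHomInv (ecG1Lev 𝒮) 𝒮.N X))
    (φ : (dualObj 𝒮.ω (𝒮.obj X hfin htriv)).carrier) :
    ν (ecG1Pre 𝒮 X hfin htriv Hobj ν hr f φ) = ecG1Chi 𝒮 X hfin htriv f.1 φ :=
  ((hr _).2 (ecG1Chi_mem 𝒮 X hfin htriv f.1 f.2 φ)).choose_spec

include hν in
/-- `f ↦ (φ ↦ φ ∘ f)`, as an additive map `D X̄ → Hobj`. -/
def ecG1Hom (f : ↥(ecShHomInv (ecG1Lev 𝒮) 𝒮.N X)) :
    (dualObj 𝒮.ω (𝒮.obj X hfin htriv)).carrier →+ Hobj.carrier where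
  toFun φ := ecG1Pre 𝒮 X hfin htriv Hobj ν hr f φ
  map_zero' := hν (by rw [ecG1Pre_spec, map_zero, ecG1Chi_zero])
  map_add' φ ψ := hν (by rw [ecG1Pre_spec, map_add, ecG1Pre_spec, ecG1Pre_spec, ecG1Chi_add])

lemma ecG1Hom_spec (f : ↥(ecShHomInv (ecG1Lev 𝒮) 𝒮.N X))
    (φ : (dualObj 𝒮.ω (𝒮.obj X hfin htriv)).carrier) :
    ν (ecG1Hom 𝒮 X hfin htriv Hobj ν hν hr f φ) = ecG1Chi 𝒮 X hfin htriv f.1 φ :=
  ecG1Pre_spec 𝒮 X hfin htriv Hobj ν hr f φ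

include he in
lemma ecG1Hom_mem (f : ↥(ecShHomInv (ecG1Lev 𝒮) 𝒮.N X)) :
    ecG1Hom 𝒮 X hfin htriv Hobj ν hν hr f ∈ homC (dualObj 𝒮.ω (𝒮.obj X hfin htriv)) Hobj := by
  intro γ φ
  obtain ⟨u, rfl⟩ := 𝒮.proj_surjective γ
  apply hν
  rw [he, ecG1Hom_spec, ecG1Hom_spec, ecG1Chi_smul 𝒮 X hfin htriv f.1 f.2]

/-- `Hom_sm(N, X)^U → Hom_Γ(D X̄, Hobj)`. -/
def ecG1Map (f : ↥(ecShHomInv (ecG1Lev 𝒮) 𝒮.N X)) :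
    ↥(homC (dualObj 𝒮.ω (𝒮.obj X hfin htriv)) Hobj) :=
  ⟨ecG1Hom 𝒮 X hfin htriv Hobj ν hν hr f, ecG1Hom_mem 𝒮 X hfin htriv Hobj ν hν hr he f⟩

lemma ecG1Map_spec (f : ↥(ecShHomInv (ecG1Lev 𝒮) 𝒮.N X))
    (φ : (dualObj 𝒮.ω (𝒮.obj X hfin htriv)).carrier) (w : ↥𝒮.W) :
    ν ((ecG1Map 𝒮 X hfin htriv Hobj ν hν hr he f).1 φ) w =
      ecG1In (ecGDVal 𝒮.ω (𝒮.obj X hfin htriv) φ
        (𝒮.objOf X hfin htriv (f.1 (ecG1toN 𝒮 w)))) :=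
  congrFun (ecG1Hom_spec 𝒮 X hfin htriv Hobj ν hν hr f φ) w

lemma ecG1Map_injective : Function.Injective (ecG1Map 𝒮 X hfin htriv Hobj ν hν hr he) := by
  intro f f' h
  apply Subtype.ext
  funext n
  have h0 : ∀ x y : X, 𝒮.objOf X hfin htriv x = 𝒮.objOf X hfin htriv y → x = y := fun x y hxy => by
    have := congrArg (𝒮.objVal X hfin htriv) hxy
    rwa [𝒮.objVal_objOf, 𝒮.objVal_objOf] at this
  apply h0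
  refine ecG_eq_of_forall (𝒮.obj X hfin htriv).killed fun φ => ?_
  have h1 := ecG1Map_spec 𝒮 X hfin htriv Hobj ν hν hr he f
    (ecGDOf 𝒮.ω (𝒮.obj X hfin htriv) φ) (ecG1toW 𝒮 n)
  have h2 := ecG1Map_spec 𝒮 X hfin htriv Hobj ν hν hr he f'
    (ecGDOf 𝒮.ω (𝒮.obj X hfin htriv) φ) (ecG1toW 𝒮 n)
  rw [h] at h1
  rw [h1] at h2
  exact ecG1In_injective h2

include hν hr he in
lemma ecG1Map_surjective : Function.Surjective (ecG1Map 𝒮 X hfin htriv Hobj ν hν hr he) := by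
  intro F
  -- the family of characters
  let G : ((𝒮.obj X hfin htriv).carrier →+ ZMod p) →+ (↥𝒮.W → ZMod p) :=
    ((AddMonoidHom.compLeft (ecG1Out (p := p)) ↥𝒮.W).comp (ν.comp F.1)).comp
      (ecGDOf 𝒮.ω (𝒮.obj X hfin htriv))
  obtain ⟨f₀, hf₀⟩ := ecG_exists_repr (𝒮.obj X hfin htriv).killed G
  have hG : ∀ (φ : (𝒮.obj X hfin htriv).carrier →+ ZMod p) (w : ↥𝒮.W),
      ecG1Out (ν (F.1 (ecGDOf 𝒮.ω (𝒮.obj X hfin htriv) φ)) w) = φ (f₀ w) := hf₀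
  have hcy : ∀ φ : (𝒮.obj X hfin htriv).carrier →+ ZMod p,
      ν (F.1 (ecGDOf 𝒮.ω (𝒮.obj X hfin htriv) φ)) ∈ cyHomW S 𝒮.W :=
    fun φ => (hr _).1 ⟨_, rfl⟩
  -- additivity
  have hadd : ∀ w w' : ↥𝒮.W, f₀ (w * w') = f₀ w + f₀ w' := by
    intro w w'
    refine ecG_eq_of_forall (𝒮.obj X hfin htriv).killed fun φ => ?_
    rw [map_add, ← hG, ← hG, ← hG, (hcy φ).1 w w', map_add]
  -- smoothness
  have hsm : ∃ V ∈ (levelsS S).sets, ∀ w : ↥𝒮.W, (w : GQ) ∈ V → f₀ w = 0 := by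
    haveI : Finite ((𝒮.obj X hfin htriv).carrier →+ ZMod p) :=
      Finite.of_injective (fun φ => (φ : (𝒮.obj X hfin htriv).carrier → ZMod p))
        DFunLike.coe_injective
    obtain ⟨V, hV, h⟩ := (levelsS S).coind_exists_le_of_finite
      (Set.univ : Set ((𝒮.obj X hfin htriv).carrier →+ ZMod p)) Set.finite_univ
      (fun φ V => ∀ w : ↥𝒮.W, (w : GQ) ∈ V →
        ν (F.1 (ecGDOf 𝒮.ω (𝒮.obj X hfin htriv) φ)) w = 0)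
      (fun φ _ => (hcy φ).2) (fun φ U V hVU hP w hw => hP w (hVU hw))
    refine ⟨V, hV, fun w hw => ?_⟩
    refine ecG_eq_of_forall (𝒮.obj X hfin htriv).killed fun φ => ?_
    rw [map_zero, ← hG, h φ (Set.mem_univ _) w hw, map_zero]
  -- equivariance
  have hconj : ∀ (u : ↥𝒮.U) (w : ↥𝒮.W) (hmem : (u : GQ) * (w : GQ) * (u : GQ)⁻¹ ∈ 𝒮.W),
      f₀ ⟨_, hmem⟩ = 𝒮.proj u • f₀ w := by
    intro u w hmem
    refine ecG_eq_of_forall (𝒮.obj X hfin htriv).killed fun φ => ?_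
    have h1 := F.2 (𝒮.proj u⁻¹) (ecGDOf 𝒮.ω (𝒮.obj X hfin htriv) φ)
    have h2 := congrArg ν h1
    rw [he] at h2
    have h3 := congrFun h2 w
    have hmem' : ((u⁻¹ : ↥𝒮.U) : GQ)⁻¹ * (w : GQ) * ((u⁻¹ : ↥𝒮.U) : GQ) ∈ 𝒮.W := by
      rw [Subgroup.coe_inv, inv_inv]
      exact hmem
    rw [cyConj_apply 𝒮.W 𝒮.normal_W _ _ w hmem'] at h3
    have h4 := congrArg (ecG1Out (p := p)) h3
    rw [ecG1Out_ρ] at h4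
    have h5 := hG (ecGDVal 𝒮.ω (𝒮.obj X hfin htriv)
      (𝒮.proj u⁻¹ • ecGDOf 𝒮.ω (𝒮.obj X hfin htriv) φ)) w
    rw [ecGDOf_val] at h5
    rw [h5, ecGDVal_smul, ecGDVal_of, hG, 𝒮.ω_proj] at h4
    have h6 := (Units.isUnit _).mul_left_cancel h4
    rw [map_inv, inv_inv] at h6
    rw [h6]
    congr 2
  -- the homomorphism
  let f : ↥𝒮.N → X := fun n => 𝒮.objVal X hfin htriv (f₀ (ecG1toW 𝒮 n))
  have hf : f ∈ ecShHomInv (ecG1Lev 𝒮) 𝒮.N X := by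
    refine ⟨fun n n' => ?_, fun h n => ?_, ?_⟩
    · show 𝒮.objVal X hfin htriv (f₀ (ecG1toW 𝒮 (n * n'))) =
        𝒮.objVal X hfin htriv (f₀ (ecG1toW 𝒮 n)) + 𝒮.objVal X hfin htriv (f₀ (ecG1toW 𝒮 n'))
      rw [ecG1toW_mul, hadd, map_add]
    · have hmem : (h : GQ) * ((ecG1toW 𝒮 n : ↥𝒮.W) : GQ) * (h : GQ)⁻¹ ∈ 𝒮.W :=
        𝒮.normal_W.conj_mem _ (ecG1toW 𝒮 n).2 _
      show 𝒮.objVal X hfin htriv (f₀ (ecG1toW 𝒮 ⟨h * n * h⁻¹, _⟩)) =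
        X.ρ h (𝒮.objVal X hfin htriv (f₀ (ecG1toW 𝒮 n)))
      rw [← 𝒮.objVal_smul X hfin htriv h, ← hconj h (ecG1toW 𝒮 n) hmem]
      rfl
    · obtain ⟨V, hV, h⟩ := hsm
      refine ⟨V.comap 𝒮.U.subtype, ⟨V, hV, rfl⟩, fun n hn => ?_⟩
      show 𝒮.objVal X hfin htriv (f₀ (ecG1toW 𝒮 n)) = 0
      rw [h (ecG1toW 𝒮 n) hn, map_zero]
  refine ⟨⟨f, hf⟩, Subtype.ext ?_⟩
  refine AddMonoidHom.ext fun φ => ?_
  apply hν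
  funext w
  rw [ecG1Map_spec]
  have h7 := hG (ecGDVal 𝒮.ω (𝒮.obj X hfin htriv) φ) w
  exact (congrArg (ecG1In (p := p)) h7).symm

include hν hr he in
/-- **(G1)**, universal form: `dim H¹_sm(U, X) = ⟨D X̄, Hobj⟩`. -/
theorem ecG1_h1 :
    (Module.finrank (ZMod p) (H1sm ((levelsS S).comap 𝒮.U.subtype) X) : ℤ) =
      pairC (dualObj 𝒮.ω (𝒮.obj X hfin htriv)) Hobj := by
  have hbij : Function.Bijective (ecG1Map 𝒮 X hfin htriv Hobj ν hν hr he) :=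
    ⟨ecG1Map_injective 𝒮 X hfin htriv Hobj ν hν hr he,
      ecG1Map_surjective 𝒮 X hfin htriv Hobj ν hν hr he⟩
  haveI : Finite ↥(ecShHomInv (ecG1Lev 𝒮) 𝒮.N X) := Finite.of_injective _ hbij.1
  have e := ecShInfResZMod (ecG1Lev 𝒮) 𝒮.N X (fun n hn x => htriv n ((𝒮.mem_N n).1 hn) x)
    ⟨𝒮.N, ⟨𝒮.W, 𝒮.hW, rfl⟩, le_rfl⟩ 𝒮.hidx
  rw [e.finrank_eq]
  unfold pairC
  rw [← Nat.card_congr (Equiv.ofBijective _ hbij), ecG_log_card]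

end Pres

end Fermat.Agent.S56.EC
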