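import Fermat.Agent.S56.W2.EC.Cyclic.Setup
import Fermat.Agent.S56.W2.EC.Cyclic.Glue.DD
import Fermat.Agent.S56.W2.EC.Sh.H0

/-!
# S56 / W2 / EC / Cyclic / Glue / G2 : `h⁰(U, X) = ⟨D X̄, μ_p⟩` (helper48)

`𝒮 : CycSetup p S`, `X` a finite `𝔽_p[U]`-module with trivial action of `W`,
`X̄ = 𝒮.obj X hfin htriv`.

* `ecGInvEquiv` : `X̄^Γ ≃ X^U`;
* `ecG2_h0` : **(G2)** `dim X^U = ⟨D X̄, μ_p⟩`.
-/

set_option autoImplicit false
set_option linter.unusedSectionVars false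
set_option linter.style.haveILetI false

noncomputable section

namespace Fermat.Agent.S56.EC

open Fermat.Agent.F4 ExtCitation

variable {p : ℕ} [Fact p.Prime] {S : Finset Nat.Primes} (𝒮 : CycSetup p S)
  (X : Rep.{0} (ZMod p) ↥𝒮.U) (hfin : Module.Finite (ZMod p) X)
  (htriv : ∀ (u : ↥𝒮.U), (u : GQ) ∈ 𝒮.W → ∀ x : X, X.ρ u x = x)

/-- A finite-dimensional `𝔽_p`-vector space is finite. -/
lemma ecG_finite_of_moduleFinite (V : Type) [AddCommGroup V] [Module (ZMod p) V]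
    (h : Module.Finite (ZMod p) V) : Finite V := by
  haveI := h
  exact Module.finite_of_finite (ZMod p)

/-- `X̄^Γ ≃ X^U`. -/
def ecGInvEquiv : ↥(ecGInv (𝒮.obj X hfin htriv)) ≃ ↥(ecShInv X) where
  toFun m := ⟨𝒮.objVal X hfin htriv m.1, fun u => by
    rw [← 𝒮.objVal_smul X hfin htriv u m.1, m.2 (𝒮.proj u)]⟩
  invFun x := ⟨𝒮.objOf X hfin htriv x.1, fun γ => by
    obtain ⟨u, rfl⟩ := 𝒮.proj_surjective γ
    have h1 : 𝒮.objVal X hfin htriv ((𝒮.proj u) • 𝒮.objOf X hfin htriv x.1) =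
        𝒮.objVal X hfin htriv (𝒮.objOf X hfin htriv x.1) := by
      rw [𝒮.objVal_smul X hfin htriv u, 𝒮.objVal_objOf]
      exact x.2 u
    have h2 := congrArg (𝒮.objOf X hfin htriv) h1
    rwa [𝒮.objOf_objVal, 𝒮.objOf_objVal] at h2⟩
  left_inv _ := rfl
  right_inv _ := rfl

/-- **(G2)** `h⁰(U, X) = ⟨D X̄, μ_p⟩`. -/
theorem ecG2_h0 :
    (Module.finrank (ZMod p) ↥(ecShInv X) : ℤ) =
      pairC (dualObj 𝒮.ω (𝒮.obj X hfin htriv)) (muObj 𝒮.ω) := by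
  haveI : Finite X := ecG_finite_of_moduleFinite X hfin
  haveI : Finite ↥(ecShInv X) := inferInstance
  rw [ecG_pairC_dual_mu, Nat.card_congr (ecGInvEquiv 𝒮 X hfin htriv), ecG_log_card]

end Fermat.Agent.S56.EC
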